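/-
S37 / package P-G, item 8(a) "classes" (helper12).

Place-side Galois facts for a semilinear automorphism `g` of a function field `F/K`
(Prelude `AlgebraicCurve.SemilinearAut`) and the residue-disc class map
`Fermat.Agent.S18.H38.cls A x : Place K F → Option (ResidueField A)` of a base function `x`
fixed by `g`:

* `ord_smul_sub_algebraMap`, `smul_sub_algebraMap_mem_nonunits`: `(g f)(g P) = g (f (P))`;
* `cls_smul_of_eq_some`, `cls_smul_of_eq_none`: the class of `g • P` is the image of the class of
  `P` under the base automorphism (decomposition-group form);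
* `cls_smul`: if the base automorphism stabilises `A` and is trivial on its residue field, then
  `cls A x (g • P) = cls A x P`;
* `cls_arithmeticGalois_smul`: the instance for the arithmetic Galois action on a base-changed
  field of `q`-expansions and `σ` in the inertia subgroup of `A`;
* `cls_arithmeticGalois_smul_of_eq_some / _of_eq_none`: the decomposition-group form of the
  instance;
* `cls_arithmeticGalois_smul_of_isFrobeniusAt`: a Frobenius at `A` acts on the classes by the
  `ℓ`-power map of the residue field.
-/
import Fermat.Agent.S18.H38.Exports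
import Fermat.Agent.S05.H63.Inertia
import Fermat.Prelude.Def_ModularCurve_ArithmeticGalois
import Fermat.Prelude.Def_EllipticCurve_FrobeniusTrace

set_option autoImplicit false

open AlgebraicCurve

noncomputable section

namespace Fermat.Agent.S37.H12

section Generic

variable {K F : Type*} [Field K] [Field F] [Algebra K F]

/-- `ord_{g P} (g f - g c) = ord_P (f - c)`. -/
theorem ord_smul_sub_algebraMap (g : SemilinearAut K F) (P : Place K F) (f : F) (c : K) :
    (g • P).ord (g • f - algebraMap K F (SemilinearAut.baseAut g c)) =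
      P.ord (f - algebraMap K F c) := by
  have h := SemilinearAut.ord_smul g P (f - algebraMap K F c)
  rwa [smul_sub, SemilinearAut.smul_algebraMap] at h

/-- Membership in the maximal ideal of `g • P`. -/
theorem mem_nonunits_smul_place_iff (g : SemilinearAut K F) (P : Place K F) (f : F) :
    g • f ∈ (g • P).toValuationSubring.nonunits ↔ f ∈ P.toValuationSubring.nonunits := by
  have hmem : ∀ y : F, g • y ∈ (g • P).toValuationSubring ↔ y ∈ P.toValuationSubring := by
    intro y
    rw [SemilinearAut.smul_toValuationSubring,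
      ValuationSubring.mem_pointwise_smul_iff_inv_smul_mem, inv_smul_smul]
  rw [ValuationSubring.mem_nonunits_iff_or, ValuationSubring.mem_nonunits_iff_or]
  have h0 : g • f = 0 ↔ f = 0 := by
    constructor
    · intro h
      have h2 := congrArg (g⁻¹ • ·) h
      simpa using h2
    · rintro rfl
      exact smul_zero g
  have hinv : (g • f)⁻¹ = g • f⁻¹ := (smul_inv'' g f).symm
  rw [h0, hinv, hmem]

/-- `(g f)(g P) = g (f (P))`: if `f` takes the value `c` at `P`, then `g f` takes the value
`g c` at `g P`. -/
theorem smul_sub_algebraMap_mem_nonunits (g : SemilinearAut K F) (P : Place K F) (f : F) (c : K) :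
    g • f - algebraMap K F (SemilinearAut.baseAut g c) ∈ (g • P).toValuationSubring.nonunits ↔
      f - algebraMap K F c ∈ P.toValuationSubring.nonunits := by
  rw [← mem_nonunits_smul_place_iff g P (f - algebraMap K F c), smul_sub,
    SemilinearAut.smul_algebraMap]

variable (A : ValuationSubring K) (x : F)

/-- Residue discs are transported by the base automorphism. -/
theorem inDisc_smul (g : SemilinearAut K F) (hx : g • x = x)
    (hnon : ∀ a : K, a ∈ A.nonunits → SemilinearAut.baseAut g a ∈ A.nonunits)
    {b : K} {P : Place K F} (h : S18.H74.InDisc A x b P) :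
    S18.H74.InDisc A x (SemilinearAut.baseAut g b) (g • P) := by
  obtain ⟨c, hcb, hc⟩ := h
  refine ⟨SemilinearAut.baseAut g c, ?_, ?_⟩
  · rw [← map_sub]
    exact hnon _ hcb
  · have h1 := ord_smul_sub_algebraMap g P x c
    rw [hx] at h1
    rw [h1]
    exact hc

/-- Decomposition-group form, finite classes: the class of `g • P` is the image of the class of
`P` under the base automorphism. -/
theorem cls_smul_of_eq_some (g : SemilinearAut K F) (hx : g • x = x)
    (hmem : ∀ a : K, a ∈ A → SemilinearAut.baseAut g a ∈ A)
    (hnon : ∀ a : K, a ∈ A.nonunits → SemilinearAut.baseAut g a ∈ A.nonunits)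
    {b : K} (hb : b ∈ A) {P : Place K F}
    (h : S18.H38.cls A x P = some (IsLocalRing.residue A ⟨b, hb⟩)) :
    S18.H38.cls A x (g • P) =
      some (IsLocalRing.residue A ⟨SemilinearAut.baseAut g b, hmem b hb⟩) := by
  rw [S18.H38.cls_eq_some_iff] at h ⊢
  exact inDisc_smul A x g hx hnon h

/-- A finite class is `some (residue b)` for some `b ∈ A`. -/
theorem exists_of_cls_eq_some {P : Place K F} {r : IsLocalRing.ResidueField A}
    (h : S18.H38.cls A x P = some r) : ∃ (b : K) (hb : b ∈ A), r = IsLocalRing.residue A ⟨b, hb⟩ := by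
  obtain ⟨⟨b, hb⟩, rfl⟩ := IsLocalRing.residue_surjective r
  exact ⟨b, hb, rfl⟩

/-- Decomposition-group form, the class at infinity. -/
theorem cls_smul_of_eq_none (g : SemilinearAut K F) (hx : g • x = x)
    (hmem : ∀ a : K, a ∈ A → (SemilinearAut.baseAut g).symm a ∈ A)
    (hnon : ∀ a : K, a ∈ A.nonunits → (SemilinearAut.baseAut g).symm a ∈ A.nonunits)
    {P : Place K F} (h : S18.H38.cls A x P = none) :
    S18.H38.cls A x (g • P) = none := by
  by_contra hne
  obtain ⟨r, hr⟩ := Option.ne_none_iff_exists'.mp hne
  obtain ⟨b, hb, rfl⟩ := exists_of_cls_eq_some A x hr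
  have hx' : g⁻¹ • x = x := by
    rw [inv_smul_eq_iff, hx]
  have h2 := cls_smul_of_eq_some A x g⁻¹ hx' hmem hnon hb hr
  rw [inv_smul_smul, h] at h2
  exact absurd h2 (by simp)

/-- Inertia form: if the base automorphism of `g` stabilises `A` and acts trivially on the residue
field of `A`, and `g` fixes the base function `x`, then `g` preserves the residue-disc classes. -/
theorem cls_smul (g : SemilinearAut K F) (hx : g • x = x)
    (hmem : ∀ a : K, SemilinearAut.baseAut g a ∈ A ↔ a ∈ A)
    (hres : ∀ a : K, a ∈ A → SemilinearAut.baseAut g a - a ∈ A.nonunits) (P : Place K F) :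
    S18.H38.cls A x (g • P) = S18.H38.cls A x P := by
  have hnon : ∀ a : K, a ∈ A.nonunits → SemilinearAut.baseAut g a ∈ A.nonunits := by
    intro a ha
    have h1 := hres a (ValuationSubring.nonunits_subset ha)
    have h2 := add_mem h1 ha
    rwa [sub_add_cancel] at h2
  have hmem' : ∀ a : K, a ∈ A → (SemilinearAut.baseAut g).symm a ∈ A := by
    intro a ha
    rw [← hmem, RingEquiv.apply_symm_apply]
    exact ha
  have hres' : ∀ a : K, a ∈ A → (SemilinearAut.baseAut g).symm a - a ∈ A.nonunits := by
    intro a ha
    have h1 := hres _ (hmem' a ha)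
    rw [RingEquiv.apply_symm_apply] at h1
    have h2 := neg_mem h1
    rwa [neg_sub] at h2
  have hnon' : ∀ a : K, a ∈ A.nonunits → (SemilinearAut.baseAut g).symm a ∈ A.nonunits := by
    intro a ha
    have h1 := hres' a (ValuationSubring.nonunits_subset ha)
    have h2 := add_mem h1 ha
    rwa [sub_add_cancel] at h2
  rcases hP : S18.H38.cls A x P with _ | r
  · exact cls_smul_of_eq_none A x g hx hmem' hnon' hP
  · obtain ⟨b, hb, rfl⟩ := exists_of_cls_eq_some A x hP
    rw [cls_smul_of_eq_some A x g hx (fun a ha => (hmem a).mpr ha) hnon hb hP]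
    congr 1
    rw [← sub_eq_zero, ← map_sub, IsLocalRing.residue_eq_zero_iff,
      ← ValuationSubring.coe_mem_nonunits_iff]
    exact hres b hb

end Generic

section Modular

open ModularCurve

variable {L : Type*} [Field L] [Algebra ℚ L]
variable (F₀ : IntermediateField ℚ (LaurentSeries ℚ)) (A : ValuationSubring L)

/-- The arithmetic Galois action of the inertia group of `A` preserves the residue-disc classes of
every base function with `σ`-fixed `q`-expansion (e.g. rational coefficients). -/
theorem cls_arithmeticGalois_smul {σ : L ≃ₐ[ℚ] L} (hσ : σ ∈ A.inertiaSubgroupIn ℚ)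
    (x : laurentBaseChange L F₀) (hx : arithmeticGalois F₀ σ • x = x)
    (P : Place L (laurentBaseChange L F₀)) :
    S18.H38.cls A x (arithmeticGalois F₀ σ • P) = S18.H38.cls A x P := by
  refine cls_smul A x (arithmeticGalois F₀ σ) hx ?_ ?_ P
  · intro a
    exact S05.H63.apply_mem_iff_of_mem_inertiaSubgroupIn hσ
  · intro a ha
    exact S05.H63.apply_sub_mem_nonunits_of_mem_inertiaSubgroupIn hσ ha

/-- Decomposition-group form of the instance, finite classes. -/
theorem cls_arithmeticGalois_smul_of_eq_some {σ : L ≃ₐ[ℚ] L}
    (hσ : σ ∈ A.decompositionSubgroup ℚ)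
    (x : laurentBaseChange L F₀) (hx : arithmeticGalois F₀ σ • x = x)
    {b : L} (hb : b ∈ A) {P : Place L (laurentBaseChange L F₀)}
    (h : S18.H38.cls A x P = some (IsLocalRing.residue A ⟨b, hb⟩)) :
    S18.H38.cls A x (arithmeticGalois F₀ σ • P) =
      some (IsLocalRing.residue A
        ⟨σ b, S05.H63.apply_mem_of_mem_decompositionSubgroup hσ hb⟩) :=
  cls_smul_of_eq_some A x (arithmeticGalois F₀ σ) hx
    (fun _ ha => S05.H63.apply_mem_of_mem_decompositionSubgroup hσ ha)
    (fun _ ha => S05.H63.apply_mem_nonunits_of_mem_decompositionSubgroup hσ ha) hb h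

/-- Decomposition-group form of the instance, the class at infinity. -/
theorem cls_arithmeticGalois_smul_of_eq_none {σ : L ≃ₐ[ℚ] L}
    (hσ : σ ∈ A.decompositionSubgroup ℚ)
    (x : laurentBaseChange L F₀) (hx : arithmeticGalois F₀ σ • x = x)
    {P : Place L (laurentBaseChange L F₀)} (h : S18.H38.cls A x P = none) :
    S18.H38.cls A x (arithmeticGalois F₀ σ • P) = none := by
  have hσ' : σ⁻¹ ∈ A.decompositionSubgroup ℚ := (A.decompositionSubgroup ℚ).inv_mem hσ
  exact cls_smul_of_eq_none A x (arithmeticGalois F₀ σ) hx
    (fun _ ha => S05.H63.apply_mem_of_mem_decompositionSubgroup hσ' ha)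
    (fun _ ha => S05.H63.apply_mem_nonunits_of_mem_decompositionSubgroup hσ' ha) h

/-- Frobenius form of the instance: a Frobenius element at `A` acts on the residue-disc classes
by the `ℓ`-power map of the residue field (and fixes the class at infinity). -/
theorem cls_arithmeticGalois_smul_of_isFrobeniusAt {σ : L ≃ₐ[ℚ] L} {ℓ : ℕ}
    (hσ : A.IsFrobeniusAt σ ℓ)
    (x : laurentBaseChange L F₀) (hx : arithmeticGalois F₀ σ • x = x)
    (P : Place L (laurentBaseChange L F₀)) :
    S18.H38.cls A x (arithmeticGalois F₀ σ • P) = (S18.H38.cls A x P).map (· ^ ℓ) := by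
  have hd := hσ.mem_decompositionSubgroup
  rcases hP : S18.H38.cls A x P with _ | r
  · rw [cls_arithmeticGalois_smul_of_eq_none F₀ A hd x hx hP]
    rfl
  · obtain ⟨b, hb, rfl⟩ := exists_of_cls_eq_some A x hP
    rw [cls_arithmeticGalois_smul_of_eq_some F₀ A hd x hx hb hP, Option.map_some]
    congr 1
    have h1 := hσ.smul_residue_eq (IsLocalRing.residue A ⟨b, hb⟩)
    rw [← IsLocalRing.ResidueField.residue_smul] at h1
    rw [← h1]
    rfl

/-- A function whose `q`-expansion has coefficients fixed by `σ` is fixed by the arithmetic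
Galois action. -/
theorem arithmeticGalois_smul_eq_self {σ : L ≃ₐ[ℚ] L} (x : laurentBaseChange L F₀)
    (hx : ∀ n : ℤ, σ ((x : LaurentSeries L).coeff n) = (x : LaurentSeries L).coeff n) :
    arithmeticGalois F₀ σ • x = x := by
  apply Subtype.ext
  rw [coe_arithmeticGalois_smul]
  ext n
  rw [ModularCurve.coeffMap_coeff]
  exact hx n

end Modular

end Fermat.Agent.S37.H12

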