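/-
S37 / task P-H0-glue (helper12), items (d), (e), (f).

(d) `arithmeticGalois_smul_eq_self_of_coeffEmb` : a function with rational `q`-expansion is fixed
    by the arithmetic Galois action.
(e) `val_smul` : value equivariance for `H36.val`,
    `val (g • P) (g • f) = SemilinearAut.baseAut g (val P f)` (unconditional), with the variants
    `val_smul_of_fixed`, `val_arithmeticGalois_smul`.
(f) Frobenius on constants: for `A.IsFrobeniusAt s ℓ` and `a ∈ A`,
    `s a - a ^ ℓ ∈ A.nonunits` and `(s.symm a) ^ ℓ - a ∈ A.nonunits`; `resA` forms.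
-/
import Fermat.Agent.S37.H36.Val
import Fermat.Agent.S05.H63.Inertia
import Fermat.Prelude.Def_ModularCurve_ArithmeticGalois
import Fermat.Prelude.Def_EllipticCurve_FrobeniusTrace

set_option autoImplicit false

open AlgebraicCurve

noncomputable section

namespace Fermat.Agent.S37.H12

/-! ### (d) rational base functions are Galois-fixed -/

section Fixed

open ModularCurve

variable {L : Type*} [Field L] [Algebra ℚ L]
variable (F₀ : IntermediateField ℚ (LaurentSeries ℚ))

/-- (d) A function whose `q`-expansion is the image of a rational Laurent series is fixed by the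
arithmetic Galois action. -/
theorem arithmeticGalois_smul_eq_self_of_coeffEmb (σ : L ≃ₐ[ℚ] L) (x : laurentBaseChange L F₀)
    (hx : ∃ X0 : LaurentSeries ℚ, (x : LaurentSeries L) = coeffEmb L X0) :
    arithmeticGalois F₀ σ • x = x := by
  obtain ⟨X0, hX0⟩ := hx
  apply Subtype.ext
  rw [coe_arithmeticGalois_smul, hX0, coeffMap_coeffEmb]

/-- (d), for the inverse. -/
theorem arithmeticGalois_inv_smul_eq_self_of_coeffEmb (σ : L ≃ₐ[ℚ] L)
    (x : laurentBaseChange L F₀)
    (hx : ∃ X0 : LaurentSeries ℚ, (x : LaurentSeries L) = coeffEmb L X0) :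
    (arithmeticGalois F₀ σ)⁻¹ • x = x := by
  rw [inv_smul_eq_iff, arithmeticGalois_smul_eq_self_of_coeffEmb F₀ σ x hx]

end Fixed

/-! ### (e) value equivariance -/

section Val

variable {K F : Type*} [Field K] [Field F] [Algebra K F]

/-- Membership in the maximal ideal of `g • P` (same as `H12.mem_nonunits_smul_place_iff`; restated
here to keep this file independent of the class file). -/
theorem smul_mem_nonunits_smul_place_iff (g : SemilinearAut K F) (P : Place K F) (f : F) :
    g • f ∈ (g • P).toValuationSubring.nonunits ↔ f ∈ P.toValuationSubring.nonunits := by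
  have hmem : ∀ y : F, g • y ∈ (g • P).toValuationSubring ↔ y ∈ P.toValuationSubring := by
    intro y
    rw [SemilinearAut.smul_toValuationSubring,
      ValuationSubring.mem_pointwise_smul_iff_inv_smul_mem, inv_smul_smul]
  rw [ValuationSubring.mem_nonunits_iff_or, ValuationSubring.mem_nonunits_iff_or]
  have h0 : g • f = 0 ↔ f = 0 := by
    constructor
    · intro h
      have h2 := congrArg (g⁻¹ • ·) h
      simpa using h2
    · rintro rfl
      exact smul_zero g
  have hinv : (g • f)⁻¹ = g • f⁻¹ := (smul_inv'' g f).symm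
  rw [h0, hinv, hmem]

/-- `f` has the value `a` at `P` iff `g f` has the value `g a` at `g P`. -/
theorem smul_sub_mem_nonunits_smul_place_iff (g : SemilinearAut K F) (P : Place K F) (f : F)
    (a : K) :
    g • f - algebraMap K F (SemilinearAut.baseAut g a) ∈ (g • P).toValuationSubring.nonunits ↔
      f - algebraMap K F a ∈ P.toValuationSubring.nonunits := by
  rw [← smul_mem_nonunits_smul_place_iff g P (f - algebraMap K F a), smul_sub,
    SemilinearAut.smul_algebraMap]

/-- (e) **Value equivariance** (unconditional: both sides are the junk value `0` when `f` has no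
value at `P`). -/
theorem val_smul (g : SemilinearAut K F) (P : Place K F) (f : F) :
    H36.val (g • P) (g • f) = SemilinearAut.baseAut g (H36.val P f) := by
  classical
  by_cases h : ∃ a : K, f - algebraMap K F a ∈ P.toValuationSubring.nonunits
  · exact H36.val_eq (g • P)
      ((smul_sub_mem_nonunits_smul_place_iff g P f _).mpr (H36.val_spec P h))
  · have h' : ¬ ∃ a : K, g • f - algebraMap K F a ∈ (g • P).toValuationSubring.nonunits := by
      rintro ⟨a, ha⟩
      apply h
      refine ⟨(SemilinearAut.baseAut g).symm a, ?_⟩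
      rw [← smul_sub_mem_nonunits_smul_place_iff g P f, RingEquiv.apply_symm_apply]
      exact ha
    have h1 : H36.val P f = 0 := by
      unfold H36.val
      rw [dif_neg h]
    have h2 : H36.val (g • P) (g • f) = 0 := by
      unfold H36.val
      rw [dif_neg h']
    rw [h1, h2, map_zero]

/-- (e), with the action moved to the other side: `val (g • P) f = g (val P (g⁻¹ f))`. -/
theorem val_smul_place (g : SemilinearAut K F) (P : Place K F) (f : F) :
    H36.val (g • P) f = SemilinearAut.baseAut g (H36.val P (g⁻¹ • f)) := by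
  rw [← val_smul g P (g⁻¹ • f), smul_inv_smul]

/-- (e), for a `g`-fixed function: `val (g • P) x = g (val P x)`. -/
theorem val_smul_of_fixed (g : SemilinearAut K F) (P : Place K F) {x : F} (hx : g • x = x) :
    H36.val (g • P) x = SemilinearAut.baseAut g (H36.val P x) := by
  have h := val_smul g P x
  rwa [hx] at h

end Val

section ValModular

open ModularCurve

variable {L : Type*} [Field L] [Algebra ℚ L]
variable (F₀ : IntermediateField ℚ (LaurentSeries ℚ))

/-- (e), for the arithmetic Galois action: `val (σ • P) (σ • f) = σ (val P f)`. -/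
theorem val_arithmeticGalois_smul (σ : L ≃ₐ[ℚ] L) (P : Place L (laurentBaseChange L F₀))
    (f : laurentBaseChange L F₀) :
    H36.val (arithmeticGalois F₀ σ • P) (arithmeticGalois F₀ σ • f) = σ (H36.val P f) :=
  val_smul (arithmeticGalois F₀ σ) P f

/-- (e), for the arithmetic Galois action and a rational function `x`:
`val (σ • P) x = σ (val P x)`. -/
theorem val_arithmeticGalois_smul_of_coeffEmb (σ : L ≃ₐ[ℚ] L)
    (P : Place L (laurentBaseChange L F₀)) (x : laurentBaseChange L F₀)
    (hx : ∃ X0 : LaurentSeries ℚ, (x : LaurentSeries L) = coeffEmb L X0) :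
    H36.val (arithmeticGalois F₀ σ • P) x = σ (H36.val P x) :=
  val_smul_of_fixed (arithmeticGalois F₀ σ) P
    (arithmeticGalois_smul_eq_self_of_coeffEmb F₀ σ x hx)

end ValModular

/-! ### (f) Frobenius on constants -/

section Frobenius

variable {K L : Type*} [Field K] [Field L] [Algebra K L]

/-- (f1) A Frobenius element at `A` is the `ℓ`-power map modulo the maximal ideal of `A`. -/
theorem frobenius_apply_sub_pow_mem_nonunits {A : ValuationSubring L} {s : L ≃ₐ[K] L} {ℓ : ℕ}
    (hs : A.IsFrobeniusAt s ℓ) {a : L} (ha : a ∈ A) : s a - a ^ ℓ ∈ A.nonunits := by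
  have h1 := hs.smul_residue_eq (IsLocalRing.residue A ⟨a, ha⟩)
  rw [← IsLocalRing.ResidueField.residue_smul, ← map_pow] at h1
  have h2 : IsLocalRing.residue A
      ((⟨s, hs.mem_decompositionSubgroup⟩ : A.decompositionSubgroup K) • (⟨a, ha⟩ : A)
        - ⟨a, ha⟩ ^ ℓ) = 0 := by
    rw [map_sub, h1, sub_self]
  rw [IsLocalRing.residue_eq_zero_iff] at h2
  exact (ValuationSubring.coe_mem_nonunits_iff (A := A)).mpr h2

/-- A Frobenius element at `A` and its inverse preserve `A`. -/
theorem frobenius_apply_mem {A : ValuationSubring L} {s : L ≃ₐ[K] L} {ℓ : ℕ}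
    (hs : A.IsFrobeniusAt s ℓ) {a : L} (ha : a ∈ A) : s a ∈ A :=
  S05.H63.apply_mem_of_mem_decompositionSubgroup hs.mem_decompositionSubgroup ha

theorem frobenius_symm_apply_mem {A : ValuationSubring L} {s : L ≃ₐ[K] L} {ℓ : ℕ}
    (hs : A.IsFrobeniusAt s ℓ) {a : L} (ha : a ∈ A) : s.symm a ∈ A := by
  have h := (S05.H63.apply_mem_iff_of_mem_decompositionSubgroup
    hs.mem_decompositionSubgroup (a := s.symm a)).mp
  rw [AlgEquiv.apply_symm_apply] at h
  exact h ha

/-- (f2) `(s⁻¹ a) ^ ℓ ≡ a` modulo the maximal ideal of `A`. -/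
theorem frobenius_symm_apply_pow_sub_mem_nonunits {A : ValuationSubring L} {s : L ≃ₐ[K] L}
    {ℓ : ℕ} (hs : A.IsFrobeniusAt s ℓ) {a : L} (ha : a ∈ A) :
    (s.symm a) ^ ℓ - a ∈ A.nonunits := by
  have h1 := frobenius_apply_sub_pow_mem_nonunits hs (frobenius_symm_apply_mem hs ha)
  rw [AlgEquiv.apply_symm_apply] at h1
  have h2 := neg_mem h1
  rwa [neg_sub] at h2

/-- (f1), `resA` form. -/
theorem resA_frobenius_apply {A : ValuationSubring L} {s : L ≃ₐ[K] L} {ℓ : ℕ}
    (hs : A.IsFrobeniusAt s ℓ) {a : L} (ha : a ∈ A) :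
    H36.resA A (s a) = H36.resA A a ^ ℓ := by
  rw [← H36.resA_pow ha, H36.resA_eq_iff (frobenius_apply_mem hs ha) (pow_mem ha ℓ)]
  exact frobenius_apply_sub_pow_mem_nonunits hs ha

/-- (f2), `resA` form. -/
theorem resA_frobenius_symm_apply_pow {A : ValuationSubring L} {s : L ≃ₐ[K] L} {ℓ : ℕ}
    (hs : A.IsFrobeniusAt s ℓ) {a : L} (ha : a ∈ A) :
    H36.resA A (s.symm a) ^ ℓ = H36.resA A a := by
  rw [← H36.resA_pow (frobenius_symm_apply_mem hs ha),
    H36.resA_eq_iff (pow_mem (frobenius_symm_apply_mem hs ha) ℓ) ha]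
  exact frobenius_symm_apply_pow_sub_mem_nonunits hs ha

/-- A Frobenius element preserves the maximal ideal of `A`. -/
theorem frobenius_apply_mem_nonunits_iff {A : ValuationSubring L} {s : L ≃ₐ[K] L} {ℓ : ℕ}
    (hs : A.IsFrobeniusAt s ℓ) {a : L} : s a ∈ A.nonunits ↔ a ∈ A.nonunits :=
  S05.H63.apply_mem_nonunits_iff_of_mem_decompositionSubgroup hs.mem_decompositionSubgroup

end Frobenius

end Fermat.Agent.S37.H12
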