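/-
S37 / task P-H0-glue (helper12), items (a), (b), (c).

Notation: `Kb = AlgebraicClosure ℚ`, `F_M = laurentBaseChange Kb (modularFunctionFieldFull M)`,
`α = heckeAlphaBar Kb N ℓ`, `β = heckeBetaBar Kb N ℓ : F_N → F_{N ℓ}`.

(a) `hdesc_beta` : `β^* D` principal `⟹ [F_{N p} : β F_N] • D` principal  (the `hdesc` of
    `H36.core_clause` for `pull = Divisor.pullbackAlong β`); also `hdesc_alpha`, `hpull_beta`.
(b) `hT_heckeOperatorAlong` : the `hT`-shape of `H36.rho_es` for `T = heckeOperatorAlong Kb N ℓ`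
    and `Tdiv = Divisor.correspondence β α`;
    `hTdiv_heckeGen` : the `hTdiv` of `H36.core_clause` (`heckeGen ⟨ℓ, hℓ⟩ • Pic0.mk D = …` under
    `heckeModuleBar N`); `heckeGen_smul_eq_heckeOperatorAlong`.
(c) `finrankAlong_beta_one/two/three` : the degrees `1`, `3`, `4` of `β` at `p = 1`, `p = 2 ∤ N`,
    `p = 3 ∤ N`; coprimality with `m`; `exists_aux_level` : the auxiliary level of the three S37
    cases (`ℓ ≥ 5`, `ℓ = 3`, `ℓ = 2`).
-/
import Fermat.Agent.S37.H13.HeckeInputs
import Fermat.Prelude.Def_ModularCurve_HeckeModule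

set_option autoImplicit false
set_option linter.style.haveILetI false

open AlgebraicCurve ModularCurve

noncomputable section

namespace Fermat.Agent.S37.H12

/-! ### (a) descent of principality along the degeneracy maps -/

section Desc

variable (N p : ℕ) [NeZero N] [NeZero p]
  [HasPrincipalDivisors (AlgebraicClosure ℚ)
    (laurentBaseChange (AlgebraicClosure ℚ) (modularFunctionFieldFull (N * p)))]

/-- (a) `hdesc` for `pull = β^*`, `β = heckeBetaBar Kb N p`: if `β^* D` is principal then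
`[F_{N p} : β F_N] • D` is principal. -/
theorem hdesc_beta (hV : (heckeBetaBar (AlgebraicClosure ℚ) N p).toRingHom.IsIntegral)
    (D : Divisor (AlgebraicClosure ℚ)
      (laurentBaseChange (AlgebraicClosure ℚ) (modularFunctionFieldFull N)))
    (h : Divisor.pullbackAlong (heckeBetaBar (AlgebraicClosure ℚ) N p) hV D ∈
      Divisor.principal (K := AlgebraicClosure ℚ)
        (F := laurentBaseChange (AlgebraicClosure ℚ) (modularFunctionFieldFull (N * p)))) :
    finrankAlong (AlgebraicClosure ℚ) (heckeBetaBar (AlgebraicClosure ℚ) N p) • D ∈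
      Divisor.principal (K := AlgebraicClosure ℚ)
        (F := laurentBaseChange (AlgebraicClosure ℚ) (modularFunctionFieldFull N)) := by
  have h1 := Divisor.isPrincipal_pushforwardAlong (heckeBetaBar (AlgebraicClosure ℚ) N p) hV
    (H87.finiteAlong_beta N p) (H13.normFormulaAlong_beta N p) (Divisor.mem_principal.mp h)
  rw [H13.pushforwardAlong_pullbackAlong_beta N p D] at h1
  exact Divisor.mem_principal.mpr h1

/-- (a) for the other degeneracy map `α = heckeAlphaBar Kb N p` (the inclusion). -/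
theorem hdesc_alpha (hV : (heckeAlphaBar (AlgebraicClosure ℚ) N p).toRingHom.IsIntegral)
    (D : Divisor (AlgebraicClosure ℚ)
      (laurentBaseChange (AlgebraicClosure ℚ) (modularFunctionFieldFull N)))
    (h : Divisor.pullbackAlong (heckeAlphaBar (AlgebraicClosure ℚ) N p) hV D ∈
      Divisor.principal (K := AlgebraicClosure ℚ)
        (F := laurentBaseChange (AlgebraicClosure ℚ) (modularFunctionFieldFull (N * p)))) :
    finrankAlong (AlgebraicClosure ℚ) (heckeAlphaBar (AlgebraicClosure ℚ) N p) • D ∈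
      Divisor.principal (K := AlgebraicClosure ℚ)
        (F := laurentBaseChange (AlgebraicClosure ℚ) (modularFunctionFieldFull N)) := by
  have h1 := Divisor.isPrincipal_pushforwardAlong (heckeAlphaBar (AlgebraicClosure ℚ) N p) hV
    (H87.finiteAlong_alpha N p) (H13.normFormulaAlong_alpha N p) (Divisor.mem_principal.mp h)
  rw [H13.pushforwardAlong_pullbackAlong_alpha N p D] at h1
  exact Divisor.mem_principal.mpr h1

omit [NeZero N] in
/-- `hpull` for `pull = β^*` (Prelude `Divisor.isPrincipal_pullbackAlong`, membership form). -/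
theorem hpull_beta (hV : (heckeBetaBar (AlgebraicClosure ℚ) N p).toRingHom.IsIntegral)
    (D : Divisor (AlgebraicClosure ℚ)
      (laurentBaseChange (AlgebraicClosure ℚ) (modularFunctionFieldFull N)))
    (h : D ∈ Divisor.principal (K := AlgebraicClosure ℚ)
      (F := laurentBaseChange (AlgebraicClosure ℚ) (modularFunctionFieldFull N))) :
    Divisor.pullbackAlong (heckeBetaBar (AlgebraicClosure ℚ) N p) hV D ∈
      Divisor.principal (K := AlgebraicClosure ℚ)
        (F := laurentBaseChange (AlgebraicClosure ℚ) (modularFunctionFieldFull (N * p))) :=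
  Divisor.mem_principal.mpr
    (Divisor.isPrincipal_pullbackAlong _ hV (Divisor.mem_principal.mp h))

end Desc

/-! ### (b) the Hecke operator on `Pic⁰` is induced by the divisor correspondence -/

section Hecke

variable (N ℓ : ℕ) [NeZero N] [NeZero ℓ]
  [HasPrincipalDivisors (AlgebraicClosure ℚ)
    (laurentBaseChange (AlgebraicClosure ℚ) (modularFunctionFieldFull (N * ℓ)))]

/-- (b) the `hT` of `H36.rho_es` for `T = heckeOperatorAlong Kb N ℓ` and
`Tdiv = Divisor.correspondence β α`. -/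
theorem hT_heckeOperatorAlong (hα : HeckeAlphaBarIntegral (AlgebraicClosure ℚ) N ℓ)
    (hβ : HeckeBetaBarIntegral (AlgebraicClosure ℚ) N ℓ)
    (D : Divisor.degZero (K := AlgebraicClosure ℚ)
      (F := laurentBaseChange (AlgebraicClosure ℚ) (modularFunctionFieldFull N))) :
    ∃ h : Divisor.correspondence (heckeBetaBar (AlgebraicClosure ℚ) N ℓ)
        (heckeAlphaBar (AlgebraicClosure ℚ) N ℓ) hβ hα D.1 ∈
        Divisor.degZero (K := AlgebraicClosure ℚ)
          (F := laurentBaseChange (AlgebraicClosure ℚ) (modularFunctionFieldFull N)),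
      heckeOperatorAlong (AlgebraicClosure ℚ) N ℓ (Pic0.mk D) =
        Pic0.mk ⟨Divisor.correspondence (heckeBetaBar (AlgebraicClosure ℚ) N ℓ)
          (heckeAlphaBar (AlgebraicClosure ℚ) N ℓ) hβ hα D.1, h⟩ := by
  have hFI : FundamentalIdentityAlong (AlgebraicClosure ℚ)
      (heckeBetaBar (AlgebraicClosure ℚ) N ℓ) hβ := H13.fundamentalIdentityAlong_beta N ℓ
  refine ⟨Divisor.correspondence_mem_degZero _ _ hβ hα hFI D.2, ?_⟩
  rw [heckeOperatorAlong_eq hα hβ hFI (H87.finiteAlong_alpha N ℓ) (H13.normFormulaAlong_alpha N ℓ)]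
  rfl

end Hecke

section HeckeGen

variable (N : ℕ) [NeZero N]

/-- (b) under `heckeModuleBar N` (with commuting Hecke operators), `heckeGen ⟨ℓ, hℓ⟩` acts as
`heckeOperatorAlong Kb N ℓ`. -/
theorem heckeGen_smul_eq_heckeOperatorAlong (hcomm : HeckeOperatorsCommuteBar N) {ℓ : ℕ}
    [NeZero ℓ] (hℓ : ℓ.Prime) (x : JZero N) :
    (letI := heckeModuleBar N; heckeGen ⟨ℓ, hℓ⟩ • x) =
      heckeOperatorAlong (AlgebraicClosure ℚ) N ℓ x := by
  rw [heckeModuleBar_heckeGen_smul hcomm ⟨ℓ, hℓ⟩ x]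
  rfl

/-- (b) the `hTdiv` of `H36.core_clause`: under `heckeModuleBar N`, `heckeGen ⟨ℓ, hℓ⟩` acts on
classes of degree-zero divisors through the correspondence `α_* β^*`. -/
theorem hTdiv_heckeGen (hcomm : HeckeOperatorsCommuteBar N) {ℓ : ℕ} [NeZero ℓ] (hℓ : ℓ.Prime)
    [HasPrincipalDivisors (AlgebraicClosure ℚ)
      (laurentBaseChange (AlgebraicClosure ℚ) (modularFunctionFieldFull (N * ℓ)))]
    (hα : HeckeAlphaBarIntegral (AlgebraicClosure ℚ) N ℓ)
    (hβ : HeckeBetaBarIntegral (AlgebraicClosure ℚ) N ℓ) :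
    letI := heckeModuleBar N
    ∀ D : Divisor.degZero (K := AlgebraicClosure ℚ)
        (F := laurentBaseChange (AlgebraicClosure ℚ) (modularFunctionFieldFull N)),
      ∃ h : Divisor.correspondence (heckeBetaBar (AlgebraicClosure ℚ) N ℓ)
          (heckeAlphaBar (AlgebraicClosure ℚ) N ℓ) hβ hα D.1 ∈
          Divisor.degZero (K := AlgebraicClosure ℚ)
            (F := laurentBaseChange (AlgebraicClosure ℚ) (modularFunctionFieldFull N)),
        heckeGen ⟨ℓ, hℓ⟩ • (Pic0.mk D : Pic0 (AlgebraicClosure ℚ)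
            (laurentBaseChange (AlgebraicClosure ℚ) (modularFunctionFieldFull N))) =
          Pic0.mk ⟨Divisor.correspondence (heckeBetaBar (AlgebraicClosure ℚ) N ℓ)
            (heckeAlphaBar (AlgebraicClosure ℚ) N ℓ) hβ hα D.1, h⟩ := by
  intro D
  obtain ⟨h, hh⟩ := hT_heckeOperatorAlong N ℓ hα hβ D
  refine ⟨h, ?_⟩
  rw [← hh]
  exact heckeGen_smul_eq_heckeOperatorAlong N hcomm hℓ (Pic0.mk D)

end HeckeGen

/-! ### (c) the degrees of the auxiliary coverings -/

section Degree

variable (N : ℕ) [NeZero N]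

/-- (c) `p = 1`: `β = heckeBetaBar Kb N 1` has degree `1`. -/
theorem finrankAlong_beta_one :
    finrankAlong (AlgebraicClosure ℚ) (heckeBetaBar (AlgebraicClosure ℚ) N 1) = 1 := by
  have h := H87.finrankAlong_beta N 1
  have e : dedekindPsi (N * 1) = dedekindPsi N := by rw [mul_one]
  rw [e] at h
  exact Nat.eq_of_mul_eq_mul_right (Fermat.Agent.S18.H87.dedekindPsi_pos N)
    (h.trans (one_mul _).symm)

/-- (c) `p = 2 ∤ N`: `β = heckeBetaBar Kb N 2` has degree `3`. -/
theorem finrankAlong_beta_two (h2 : ¬ 2 ∣ N) :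
    finrankAlong (AlgebraicClosure ℚ) (heckeBetaBar (AlgebraicClosure ℚ) N 2) = 3 :=
  H87.finrankAlong_beta_prime N 2 Nat.prime_two h2

/-- (c) `p = 3 ∤ N`: `β = heckeBetaBar Kb N 3` has degree `4`. -/
theorem finrankAlong_beta_three (h3 : ¬ 3 ∣ N) :
    finrankAlong (AlgebraicClosure ℚ) (heckeBetaBar (AlgebraicClosure ℚ) N 3) = 4 :=
  H87.finrankAlong_beta_prime N 3 Nat.prime_three h3

/-- (c) coprimality, `p = 1`. -/
theorem coprime_finrankAlong_beta_one (m : ℕ) :
    Nat.Coprime (finrankAlong (AlgebraicClosure ℚ) (heckeBetaBar (AlgebraicClosure ℚ) N 1)) m := by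
  rw [finrankAlong_beta_one]
  exact Nat.coprime_one_left m

/-- (c) coprimality, `p = 2 ∤ N` (the case `ℓ = 3`): the degree `3` is prime to every `m` with
`3 ∤ m`. -/
theorem coprime_finrankAlong_beta_two (h2 : ¬ 2 ∣ N) {m : ℕ} (hm : ¬ 3 ∣ m) :
    Nat.Coprime (finrankAlong (AlgebraicClosure ℚ) (heckeBetaBar (AlgebraicClosure ℚ) N 2)) m := by
  rw [finrankAlong_beta_two N h2]
  exact (Nat.Prime.coprime_iff_not_dvd Nat.prime_three).mpr hm

/-- (c) coprimality, `p = 3 ∤ N` (the case `ℓ = 2`): the degree `4` is prime to every `m` with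
`2 ∤ m`. -/
theorem coprime_finrankAlong_beta_three (h3 : ¬ 3 ∣ N) {m : ℕ} (hm : ¬ 2 ∣ m) :
    Nat.Coprime (finrankAlong (AlgebraicClosure ℚ) (heckeBetaBar (AlgebraicClosure ℚ) N 3)) m := by
  rw [finrankAlong_beta_three N h3]
  have h4 : (4 : ℕ) = 2 ^ 2 := by norm_num
  rw [h4]
  exact Nat.Coprime.pow_left 2 ((Nat.Prime.coprime_iff_not_dvd Nat.prime_two).mpr hm)

/-- (c) **The auxiliary level of the three S37 cases.** For a prime `ℓ ∤ N` there is `p ∈ {1,2,3}`
with `ℓ ∤ N p`, such that the base function of level `N p` exists (`ℓ ≠ 2, 3`; or `ℓ = 3` and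
`2 ∣ N p`; or `ℓ = 2` and `3 ∣ N p`) and the degree of `β = heckeBetaBar Kb N p` is prime to every
`m` with `ℓ ∤ m`. -/
theorem exists_aux_level {ℓ : ℕ} (hℓ : ℓ.Prime) (hℓN : ¬ ℓ ∣ N) :
    ∃ (p : ℕ) (_ : NeZero p), ¬ ℓ ∣ N * p ∧
      ((ℓ ≠ 2 ∧ ℓ ≠ 3) ∨ (ℓ = 3 ∧ 2 ∣ N * p) ∨ (ℓ = 2 ∧ 3 ∣ N * p)) ∧
      ∀ m : ℕ, ¬ ℓ ∣ m →
        Nat.Coprime
          (finrankAlong (AlgebraicClosure ℚ) (heckeBetaBar (AlgebraicClosure ℚ) N p)) m := by
  by_cases hl3 : ℓ = 3
  · subst hl3
    by_cases h2N : 2 ∣ N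
    · refine ⟨1, ⟨one_ne_zero⟩, by rwa [mul_one], Or.inr (Or.inl ⟨rfl, by rwa [mul_one]⟩),
        fun m _ => coprime_finrankAlong_beta_one N m⟩
    · refine ⟨2, ⟨two_ne_zero⟩, ?_, Or.inr (Or.inl ⟨rfl, dvd_mul_left 2 N⟩),
        fun m hm => coprime_finrankAlong_beta_two N h2N hm⟩
      intro h
      rcases (Nat.Prime.dvd_mul Nat.prime_three).mp h with h | h
      · exact hℓN h
      · exact absurd (Nat.le_of_dvd (by norm_num) h) (by norm_num)
  · by_cases hl2 : ℓ = 2
    · subst hl2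
      by_cases h3N : 3 ∣ N
      · refine ⟨1, ⟨one_ne_zero⟩, by rwa [mul_one], Or.inr (Or.inr ⟨rfl, by rwa [mul_one]⟩),
          fun m _ => coprime_finrankAlong_beta_one N m⟩
      · refine ⟨3, ⟨three_ne_zero⟩, ?_, Or.inr (Or.inr ⟨rfl, dvd_mul_left 3 N⟩),
          fun m hm => coprime_finrankAlong_beta_three N h3N hm⟩
        intro h
        rcases (Nat.Prime.dvd_mul Nat.prime_two).mp h with h | h
        · exact hℓN h
        · exact absurd h (by norm_num)
    · exact ⟨1, ⟨one_ne_zero⟩, by rwa [mul_one], Or.inl ⟨hl2, hl3⟩,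
        fun m _ => coprime_finrankAlong_beta_one N m⟩

end Degree

end Fermat.Agent.S37.H12
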