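/-
S37 / P-H input (I3) (helper12): norm descent along `V = heckeBetaBar Kb N q`, in the exact shape
of the skeleton `S37/H77/Skeleton.lean` (`Kb`, `FN` of `S18.H74`; the `HasPrincipalDivisors`
instance of the statement is a proof of a `Prop`, hence irrelevant).
-/
import Fermat.Agent.S37.H12.GlueHecke
import Fermat.Agent.S18.H74.TopDefs

set_option autoImplicit false

open AlgebraicCurve ModularCurve

noncomputable section

namespace Fermat.Agent.S37.H12

open Fermat.Agent.S18.H74 (Kb FN)

/-- Principal divisors on the modular function fields (landed `S18/H13`). -/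
theorem hasPrincipalDivisors_FN_aux (M : ℕ) [NeZero M] : HasPrincipalDivisors Kb (FN M) :=
  Fermat.Agent.S18.H13.hasPrincipalDivisors_FF M

attribute [local instance] hasPrincipalDivisors_FN_aux

/-- **(I3)** If the pull-back of `D` along `V = heckeBetaBar Kb N q` is principal, then
`[F_{N q} : V F_N] • D` is principal. -/
theorem desc_beta (N q : ℕ) [NeZero N] [NeZero q]
    (hV : (heckeBetaBar Kb N q).toRingHom.IsIntegral) (D : Divisor Kb (FN N))
    (hD : Divisor.pullbackAlong (heckeBetaBar Kb N q) hV D ∈
      Divisor.principal (K := Kb) (F := FN (N * q))) :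
    finrankAlong Kb (heckeBetaBar Kb N q) • D ∈ Divisor.principal (K := Kb) (F := FN N) :=
  hdesc_beta N q hV D hD

end Fermat.Agent.S37.H12
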