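/-
S37 / package P-D, part (D2): the pure power-series form of Kronecker's congruence.

For a domain `R`, a prime `l`, a primitive `l`-th root of unity `ζ ∈ Rˣ` and a Laurent series
`Y ∈ R((q))`:

* `exists_kronecker` : `∏_{b < l} Y(ζ^b q) = W(q^l)` for a Laurent series `W` over the SAME ring
  `R`, and for every ring homomorphism `π : R → k` to a field of characteristic `l` the reduction
  of `W` is the coefficientwise Frobenius of the reduction of `Y`.

The two ingredients are of independent use:

* `eq_qExpand_of_qScale_eq` : a Laurent series fixed by `q ↦ ζ q` is a series in `q^l`;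
* `pow_char_eq_qExpand` : in characteristic `l`, `y ^ l = (Frob y)(q^l)`.

`qScale` is the landed `Fermat.Agent.S28.qScale`; `qExpand`, `coeffMap` are the Prelude's.
-/
import Mathlib
import Fermat.Agent.S28.Defs

set_option autoImplicit false

noncomputable section

namespace Fermat.Agent.S37.H12

open ModularCurve Fermat.Agent.S28

section Contract

variable {R : Type*} [CommRing R]

/-- The support of `m ↦ P.coeff (l * m)` is bounded below. -/
theorem bddBelow_support_contract (l : ℕ) [NeZero l] (P : LaurentSeries R) :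
    BddBelow (Function.support fun m : ℤ => P.coeff ((l : ℤ) * m)) := by
  refine ⟨min P.order 0, fun m hm => ?_⟩
  by_contra hlt
  rw [not_le] at hlt
  apply hm
  have hl : (1 : ℤ) ≤ (l : ℤ) := by exact_mod_cast Nat.pos_of_ne_zero (NeZero.ne l)
  have hm0 : m < 0 := lt_of_lt_of_le hlt (min_le_right _ _)
  have hmo : m < P.order := lt_of_lt_of_le hlt (min_le_left _ _)
  have h1 : (l : ℤ) * m ≤ m := by nlinarith
  exact HahnSeries.coeff_eq_zero_of_lt_order (lt_of_le_of_lt h1 hmo)

/-- The series `W` with `W_m = P_{l m}`. -/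
def qContract (l : ℕ) [NeZero l] (P : LaurentSeries R) : LaurentSeries R :=
  HahnSeries.ofSuppBddBelow (fun m : ℤ => P.coeff ((l : ℤ) * m)) (bddBelow_support_contract l P)

@[simp]
theorem qContract_coeff (l : ℕ) [NeZero l] (P : LaurentSeries R) (m : ℤ) :
    (qContract l P).coeff m = P.coeff ((l : ℤ) * m) :=
  HahnSeries.ofSuppBddBelow_coeff _ _ m

/-- A series supported on the multiples of `l` is `qExpand l` of its contraction. -/
theorem qExpand_qContract (l : ℕ) [NeZero l] (P : LaurentSeries R)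
    (h : ∀ n : ℤ, ¬ (l : ℤ) ∣ n → P.coeff n = 0) : qExpand R l (qContract l P) = P := by
  ext k
  by_cases hk : (l : ℤ) ∣ k
  · obtain ⟨m, rfl⟩ := hk
    rw [qExpand_coeff_mul, qContract_coeff]
  · rw [qExpand_coeff_of_not_dvd l _ hk, h k hk]

theorem qScale_qScale (a b : Rˣ) (Y : LaurentSeries R) :
    qScale a (qScale b Y) = qScale (a * b) Y := by
  ext n
  simp only [qScale_coeff, mul_zpow, Units.val_mul]
  ring

theorem qScale_one (Y : LaurentSeries R) : qScale (1 : Rˣ) Y = Y := by
  ext n
  simp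

/-- `qScale` commutes with a change of coefficients. -/
theorem coeffMap_qScale {S : Type*} [CommRing S] (π : R →+* S) (c : Rˣ) (Y : LaurentSeries R) :
    coeffMap π (qScale c Y) = qScale (Units.map (π : R →* S) c) (coeffMap π Y) := by
  ext n
  simp only [coeffMap_coeff, qScale_coeff, map_mul]
  congr 1
  rw [← map_zpow]
  rfl

/-- `qExpand` commutes with a change of coefficients. -/
theorem coeffMap_qExpand {S : Type*} [CommRing S] (π : R →+* S) (l : ℕ) [NeZero l]
    (W : LaurentSeries R) : coeffMap π (qExpand R l W) = qExpand S l (coeffMap π W) := by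
  ext k
  by_cases hk : (l : ℤ) ∣ k
  · obtain ⟨m, rfl⟩ := hk
    rw [coeffMap_coeff, qExpand_coeff_mul, qExpand_coeff_mul, coeffMap_coeff]
  · rw [coeffMap_coeff, qExpand_coeff_of_not_dvd l _ hk, qExpand_coeff_of_not_dvd l _ hk, map_zero]

end Contract

section Fixed

variable {R : Type*} [CommRing R] [IsDomain R]

/-- **(a)** A Laurent series over a domain fixed by `q ↦ ζ q`, `ζ` a primitive `l`-th root of
unity, is a series in `q ^ l`. -/
theorem eq_qExpand_of_qScale_eq {l : ℕ} [NeZero l] (ζ : Rˣ) (hζ : IsPrimitiveRoot ζ l)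
    (P : LaurentSeries R) (hP : qScale ζ P = P) : qExpand R l (qContract l P) = P := by
  refine qExpand_qContract l P fun n hn => ?_
  have h1 := congrArg (fun x : LaurentSeries R => x.coeff n) hP
  simp only [qScale_coeff] at h1
  have h2 : (((ζ ^ n : Rˣ) : R) - 1) * P.coeff n = 0 := by rw [sub_mul, h1, one_mul, sub_self]
  rcases mul_eq_zero.mp h2 with h | h
  · exfalso
    apply hn
    rw [← hζ.zpow_eq_one_iff_dvd]
    exact Units.ext (by simpa using sub_eq_zero.mp h)
  · exact h

omit [IsDomain R] in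
/-- The product over the `l` substitutions `q ↦ ζ^b q` is fixed by `q ↦ ζ q`. -/
theorem qScale_prod_qScale {l : ℕ} [NeZero l] (ζ : Rˣ) (hζ : ζ ^ l = 1) (Y : LaurentSeries R) :
    qScale ζ (∏ b ∈ Finset.range l, qScale (ζ ^ b) Y) = ∏ b ∈ Finset.range l, qScale (ζ ^ b) Y := by
  rw [map_prod]
  have h1 : ∀ b ∈ Finset.range l, qScale ζ (qScale (ζ ^ b) Y) = qScale (ζ ^ ((b + 1) % l)) Y := by
    intro b _
    rw [qScale_qScale, ← pow_succ', ← pow_eq_pow_mod (b + 1) hζ]
  rw [Finset.prod_congr rfl h1, ← Fin.prod_univ_eq_prod_range (fun b => qScale (ζ ^ ((b + 1) % l)) Y) l,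
    ← Fin.prod_univ_eq_prod_range (fun b => qScale (ζ ^ b) Y) l]
  refine Fintype.prod_equiv (Equiv.addRight (1 : Fin l)) _ _ fun i => ?_
  congr 2
  simp [Fin.val_add]

end Fixed

section CharP

theorem coeffMap_ofPowerSeries {S T : Type*} [CommRing S] [CommRing T] (φ : S →+* T)
    (f : PowerSeries S) :
    coeffMap φ (HahnSeries.ofPowerSeries ℤ S f) = HahnSeries.ofPowerSeries ℤ T (f.map φ) := by
  ext n
  rcases lt_or_ge n 0 with hn | hn
  · rw [coeffMap_coeff, ofPowerSeries_coeff_of_neg _ hn, ofPowerSeries_coeff_of_neg _ hn, map_zero]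
  · lift n to ℕ using hn
    rw [coeffMap_coeff, HahnSeries.ofPowerSeries_apply_coeff, HahnSeries.ofPowerSeries_apply_coeff,
      PowerSeries.coeff_map]

theorem qExpand_ofPowerSeries {S : Type*} [CommRing S] (N : ℕ) [NeZero N] (f : PowerSeries S) :
    qExpand S N (HahnSeries.ofPowerSeries ℤ S f) =
      HahnSeries.ofPowerSeries ℤ S (PowerSeries.expand N (NeZero.ne N) f) := by
  have hN : (0 : ℤ) < N := by exact_mod_cast Nat.pos_of_ne_zero (NeZero.ne N)
  ext k
  by_cases hk : (N : ℤ) ∣ k
  · obtain ⟨m, rfl⟩ := hk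
    rw [qExpand_coeff_mul]
    rcases lt_or_ge m 0 with hm | hm
    · rw [ofPowerSeries_coeff_of_neg _ hm, ofPowerSeries_coeff_of_neg _ (by nlinarith)]
    · lift m to ℕ using hm
      rw [HahnSeries.ofPowerSeries_apply_coeff, show (N : ℤ) * (m : ℤ) = ((N * m : ℕ) : ℤ) by
        push_cast; ring, HahnSeries.ofPowerSeries_apply_coeff, PowerSeries.coeff_expand,
        if_pos (dvd_mul_right N m), Nat.mul_div_cancel_left m (Nat.pos_of_ne_zero (NeZero.ne N))]
  · rw [qExpand_coeff_of_not_dvd N _ hk]
    rcases lt_or_ge k 0 with hk0 | hk0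
    · rw [ofPowerSeries_coeff_of_neg _ hk0]
    · lift k to ℕ using hk0
      rw [HahnSeries.ofPowerSeries_apply_coeff, PowerSeries.coeff_expand, if_neg]
      intro hdvd
      exact hk (by exact_mod_cast hdvd)

variable {k : Type*} [CommRing k] (l : ℕ) [hl : Fact l.Prime] [NeZero l] [CharP k l]

/-- In characteristic `l`: `f ^ l = (Frob f)(X ^ l)` for power series. -/
theorem powerSeries_pow_char (f : PowerSeries k) :
    f ^ l = PowerSeries.expand l (NeZero.ne l) (f.map (frobenius k l)) := by
  rw [← PowerSeries.map_expand]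
  exact (MvPowerSeries.map_frobenius_expand (σ := Unit) l (NeZero.ne l) (f := f)).symm

/-- **(b)** In characteristic `l`: `y ^ l = (Frob y)(q ^ l)` for Laurent series. -/
theorem pow_char_eq_qExpand (y : LaurentSeries k) :
    y ^ l = qExpand k l (coeffMap (frobenius k l) y) := by
  have hy := LaurentSeries.single_order_mul_powerSeriesPart y
  have e1 : y ^ l = HahnSeries.single ((l : ℤ) * y.order) (1 : k) *
      HahnSeries.ofPowerSeries ℤ k (y.powerSeriesPart ^ l) := by
    conv_lhs => rw [← hy]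
    rw [mul_pow, HahnSeries.single_pow, one_pow, map_pow, nsmul_eq_mul]
  have e2 : qExpand k l (coeffMap (frobenius k l) y) = HahnSeries.single ((l : ℤ) * y.order) (1 : k) *
      HahnSeries.ofPowerSeries ℤ k
        (PowerSeries.expand l (NeZero.ne l) (y.powerSeriesPart.map (frobenius k l))) := by
    conv_lhs => rw [← hy]
    rw [map_mul, map_mul, coeffMap_single, qExpand_single, coeffMap_ofPowerSeries,
      qExpand_ofPowerSeries, map_one (frobenius k l)]
  rw [e1, e2, powerSeries_pow_char l]

end CharP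

section Main

variable {R : Type*} [CommRing R] [IsDomain R]

omit [IsDomain R] in
/-- A primitive `l`-th root of unity maps to `1` in a field of characteristic `l`. -/
theorem map_eq_one_of_pow_eq_one {k : Type*} [Field k] (l : ℕ) [hl : Fact l.Prime] [CharP k l]
    (π : R →+* k) (ζ : Rˣ) (hζ : ζ ^ l = 1) : Units.map (π : R →* k) ζ = 1 := by
  have h1 : (Units.map (π : R →* k) ζ) ^ l = 1 := by rw [← map_pow, hζ, map_one]
  have h2 : ((Units.map (π : R →* k) ζ : kˣ) : k) ^ l = 1 := by
    rw [← Units.val_pow_eq_pow_val, h1, Units.val_one]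
  have h3 : (((Units.map (π : R →* k) ζ : kˣ) : k) - 1) ^ l = 0 := by
    rw [sub_pow_char, h2, one_pow, sub_self]
  exact Units.ext (by simpa using sub_eq_zero.mp (pow_eq_zero_iff (hl.out.ne_zero) |>.mp h3))

/-- **(D2), Kronecker's congruence for Laurent series.**  `∏_{b < l} Y(ζ^b q) = W(q^l)` with `W`
over the same ring, and the reduction of `W` to any field of characteristic `l` is the
coefficientwise Frobenius of the reduction of `Y`. -/
theorem exists_kronecker {l : ℕ} [hl : Fact l.Prime] [NeZero l] (ζ : Rˣ)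
    (hζ : IsPrimitiveRoot ζ l) (Y : LaurentSeries R) :
    ∃ W : LaurentSeries R, (∏ b ∈ Finset.range l, qScale (ζ ^ b) Y) = qExpand R l W ∧
      ∀ (k : Type*) [Field k] [CharP k l] (π : R →+* k),
        coeffMap π W = coeffMap ((frobenius k l).comp π) Y := by
  have hfix := qScale_prod_qScale ζ hζ.pow_eq_one Y
  have hW := eq_qExpand_of_qScale_eq ζ hζ _ hfix
  refine ⟨qContract l (∏ b ∈ Finset.range l, qScale (ζ ^ b) Y), hW.symm, fun k _ _ π => ?_⟩
  apply qExpand_injective (R := k) l
  rw [← coeffMap_qExpand, hW, map_prod]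
  have h1 : ∀ b ∈ Finset.range l, coeffMap π (qScale (ζ ^ b) Y) = coeffMap π Y := by
    intro b _
    rw [coeffMap_qScale, map_pow, map_eq_one_of_pow_eq_one l π ζ hζ.pow_eq_one, one_pow, qScale_one]
  rw [Finset.prod_congr rfl h1, Finset.prod_const, Finset.card_range, pow_char_eq_qExpand,
    coeffMap_coeffMap]

end Main

section ValuationSubring

variable {L : Type*} [Field L] (A : ValuationSubring L)

/-- A root of unity of `L` lies in every valuation subring, as a unit. -/
theorem exists_unit_of_pow_eq_one {l : ℕ} (hl : l ≠ 0) (ζ : Lˣ) (hζ : ζ ^ l = 1) :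
    ∃ ζA : (↥A)ˣ, Units.map (A.subtype : ↥A →* L) ζA = ζ := by
  have hv : ∀ z : Lˣ, z ^ l = 1 → (z : L) ∈ A := by
    intro z hz
    rw [← A.valuation_le_one_iff]
    have h1 : A.valuation (z : L) ^ l = 1 := by
      rw [← map_pow, ← Units.val_pow_eq_pow_val, hz, Units.val_one, map_one]
    exact (pow_eq_one_iff_of_nonneg zero_le hl |>.mp h1).le
  have hinv : (ζ⁻¹) ^ l = 1 := by rw [inv_pow, hζ, inv_one]
  refine ⟨⟨⟨(ζ : L), hv ζ hζ⟩, ⟨((ζ⁻¹ : Lˣ) : L), hv ζ⁻¹ hinv⟩, ?_, ?_⟩, ?_⟩
  · exact Subtype.ext (by simp)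
  · exact Subtype.ext (by simp)
  · exact Units.ext rfl

variable {l : ℕ} [hl : Fact l.Prime] [NeZero l] [CharP (IsLocalRing.ResidueField A) l]

/-- **(D2), valuation-subring form.**  For `Y ∈ A((q))` and a primitive `l`-th root of unity `ζ`
of `L`: `∏_{b < l} Y(ζ^b q) = W(q^l)` with `W ∈ A((q))` whose reduction is the coefficientwise
Frobenius of the reduction of `Y`. -/
theorem exists_kronecker_valuationSubring (ζ : Lˣ) (hζ : IsPrimitiveRoot ζ l)
    (Y : LaurentSeries A) :
    ∃ W : LaurentSeries A,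
      (∏ b ∈ Finset.range l, qScale (ζ ^ b) (coeffMap A.subtype Y)) =
          qExpand L l (coeffMap A.subtype W) ∧
        coeffMap (IsLocalRing.residue A) W =
          coeffMap (frobenius (IsLocalRing.ResidueField A) l) (coeffMap (IsLocalRing.residue A) Y) := by
  obtain ⟨ζA, hζA⟩ := exists_unit_of_pow_eq_one A (NeZero.ne l) ζ hζ.pow_eq_one
  have hprim : IsPrimitiveRoot ζA l := by
    have hinj : Function.Injective (Units.map (A.subtype : ↥A →* L)) :=
      Units.map_injective (Subtype.val_injective)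
    exact IsPrimitiveRoot.of_map_of_injective (f := Units.map (A.subtype : ↥A →* L))
      (by rw [hζA]; exact hζ) hinj
  obtain ⟨W, hW, hred⟩ := exists_kronecker ζA hprim Y
  refine ⟨W, ?_, ?_⟩
  · rw [← coeffMap_qExpand, ← hW, map_prod]
    refine Finset.prod_congr rfl fun b _ => ?_
    rw [coeffMap_qScale, map_pow, hζA]
  · rw [hred (IsLocalRing.ResidueField A) (IsLocalRing.residue A), coeffMap_coeffMap]

/-- **(D2) for ratios**, in the shape of `IsOneUnit`-style representatives: if
`c * Y₂ = Y₁` with `Y₁, Y₂ ∈ A((q))`, then `(∏_{b < l} c(ζ^b q)) * W₂(q^l) = W₁(q^l)` with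
`W₁, W₂ ∈ A((q))` reducing to the coefficientwise Frobenius of the reductions of `Y₁, Y₂`. -/
theorem exists_kronecker_ratio (ζ : Lˣ) (hζ : IsPrimitiveRoot ζ l) (c : LaurentSeries L)
    (Y₁ Y₂ : LaurentSeries A) (hc : c * coeffMap A.subtype Y₂ = coeffMap A.subtype Y₁) :
    ∃ W₁ W₂ : LaurentSeries A,
      (∏ b ∈ Finset.range l, qScale (ζ ^ b) c) * qExpand L l (coeffMap A.subtype W₂) =
          qExpand L l (coeffMap A.subtype W₁) ∧
        coeffMap (IsLocalRing.residue A) W₁ =
          coeffMap (frobenius (IsLocalRing.ResidueField A) l)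
            (coeffMap (IsLocalRing.residue A) Y₁) ∧
        coeffMap (IsLocalRing.residue A) W₂ =
          coeffMap (frobenius (IsLocalRing.ResidueField A) l)
            (coeffMap (IsLocalRing.residue A) Y₂) := by
  obtain ⟨W₁, hW₁, hred₁⟩ := exists_kronecker_valuationSubring A ζ hζ Y₁
  obtain ⟨W₂, hW₂, hred₂⟩ := exists_kronecker_valuationSubring A ζ hζ Y₂
  refine ⟨W₁, W₂, ?_, hred₁, hred₂⟩
  rw [← hW₁, ← hW₂, ← Finset.prod_mul_distrib]
  refine Finset.prod_congr rfl fun b _ => ?_
  rw [← map_mul, hc]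

/-- The `l`-th power of a series of `A((q))` reduces to `(Frob Ȳ)(q^l)`. -/
theorem coeffMap_residue_pow (Y : LaurentSeries A) :
    coeffMap (IsLocalRing.residue A) (Y ^ l) =
      qExpand (IsLocalRing.ResidueField A) l
        (coeffMap (frobenius (IsLocalRing.ResidueField A) l) (coeffMap (IsLocalRing.residue A) Y)) := by
  rw [map_pow, pow_char_eq_qExpand]

end ValuationSubring

end Fermat.Agent.S37.H12
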